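import Mathlib

/-!
# S51 project: the curve 15a1 in the form `y² = x (x + 9) (x - 16)`

Shared by the descent modules (Halving, TwoAdic, Main).
-/

set_option autoImplicit false

open WeierstrassCurve WeierstrassCurve.Affine WeierstrassCurve.Affine.Point

namespace Fermat.Agent.S51x

/-- the curve 15a1 in the form `y² = x³ - 7x² - 144x`. -/
def W15 : WeierstrassCurve ℚ := ⟨0, -7, 0, -144, 0⟩

@[simp] lemma W15_a₁ : W15.a₁ = 0 := rfl
@[simp] lemma W15_a₂ : W15.a₂ = -7 := rfl
@[simp] lemma W15_a₃ : W15.a₃ = 0 := rfl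
@[simp] lemma W15_a₄ : W15.a₄ = -144 := rfl
@[simp] lemma W15_a₆ : W15.a₆ = 0 := rfl

lemma W15_Δ : W15.Δ = 207360000 := by
  simp only [WeierstrassCurve.Δ, WeierstrassCurve.b₂, WeierstrassCurve.b₄, WeierstrassCurve.b₆,
    WeierstrassCurve.b₈, W15_a₁, W15_a₂, W15_a₃, W15_a₄, W15_a₆]
  norm_num

instance W15_isElliptic : W15.IsElliptic :=
  ⟨by rw [W15_Δ]; exact isUnit_iff_ne_zero.mpr (by norm_num)⟩

lemma W15_equation_iff (x y : ℚ) :
    W15.toAffine.Equation x y ↔ y ^ 2 = x * (x + 9) * (x - 16) := by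
  rw [WeierstrassCurve.Affine.equation_iff]
  simp only [W15_a₁, W15_a₂, W15_a₃, W15_a₄, W15_a₆]
  constructor <;> intro h <;> linear_combination h

lemma W15_nonsingular_iff (x y : ℚ) :
    W15.toAffine.Nonsingular x y ↔ y ^ 2 = x * (x + 9) * (x - 16) := by
  rw [← W15_equation_iff]
  exact (WeierstrassCurve.Affine.equation_iff_nonsingular (W := W15)).symm

lemma W15_negY (x y : ℚ) : W15.toAffine.negY x y = -y := by
  simp [WeierstrassCurve.Affine.negY]

/-- the duplication map on `x`-coordinates. -/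
noncomputable def dbl15 (x : ℚ) : ℚ := (x ^ 2 + 144) ^ 2 / (4 * (x * (x + 9) * (x - 16)))

/-- A point with `y = 0` is `2`-torsion. -/
theorem W15_add_self_of_y_eq_zero {x y : ℚ} (h : W15.toAffine.Nonsingular x y) (hy : y = 0) :
    (Point.some x y h : W15.toAffine.Point) + Point.some x y h = 0 := by
  apply Point.add_self_of_Y_eq
  rw [W15_negY, hy]; simp

/-- transport of `Point.some` along an equality of coordinates. -/
theorem W15_some_congr {x x' y y' : ℚ} (h : W15.toAffine.Nonsingular x y) (hx : x = x')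
    (hy : y = y') :
    ∃ h' : W15.toAffine.Nonsingular x' y',
      (Point.some x y h : W15.toAffine.Point) = Point.some x' y' h' := by
  subst hx hy
  exact ⟨h, rfl⟩

/-- duplication formula on `W15`. -/
theorem x_two_smul {x y : ℚ} (h : W15.toAffine.Nonsingular x y) (hy : y ≠ 0) :
    ∃ (y' : ℚ) (h' : W15.toAffine.Nonsingular
        ((x ^ 2 + 144) ^ 2 / (4 * (x * (x + 9) * (x - 16)))) y'),
      (Point.some x y h : W15.toAffine.Point) + Point.some x y h =
        Point.some ((x ^ 2 + 144) ^ 2 / (4 * (x * (x + 9) * (x - 16)))) y' h' := by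
  have hne : y ≠ W15.toAffine.negY x y := by
    rw [W15_negY]
    intro hc
    apply hy
    linarith
  have heq : y ^ 2 = x * (x + 9) * (x - 16) := (W15_nonsingular_iff x y).mp h
  have hx : W15.toAffine.addX x x (W15.toAffine.slope x x y y) =
      (x ^ 2 + 144) ^ 2 / (4 * (x * (x + 9) * (x - 16))) := by
    rw [WeierstrassCurve.Affine.slope_of_Y_ne rfl hne, W15_negY]
    simp only [WeierstrassCurve.Affine.addX, W15_a₁, W15_a₂, W15_a₄]
    rw [← heq]
    have h2 : y - -y = 2 * y := by ring
    rw [h2]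
    field_simp
    linear_combination (112 - 32 * x) * heq
  rw [Point.add_self_of_Y_ne (h₁ := h) hne]
  obtain ⟨h', e⟩ := W15_some_congr
    (WeierstrassCurve.Affine.nonsingular_add h h fun hxy => hne hxy.right) hx rfl
  exact ⟨_, h', e⟩

end Fermat.Agent.S51x
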