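import Fermat.Agent.S51x.Descent.Curve

/-!
# S51 project, descent on 15a1 (module M52): halving and translation by 4-torsion

Every rational point of `W15 : y² = x(x+9)(x-16)` is of the form `T + 2Q` with `4T = 0`, given the
classification of square classes (module M51) as a hypothesis.
-/

set_option autoImplicit false

open WeierstrassCurve WeierstrassCurve.Affine WeierstrassCurve.Affine.Point

namespace Fermat.Agent.S51x

/-- `A` is a square as soon as `M² A` is a square, `M ≠ 0`. -/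
theorem isSquare_of_sq_mul_eq_sq {A B M : ℚ} (hM : M ≠ 0) (h : M ^ 2 * A = B ^ 2) :
    IsSquare A := by
  refine ⟨B / M, ?_⟩
  field_simp
  linarith

theorem W15_four_zsmul (T : W15.toAffine.Point) : (4 : ℤ) • T = (T + T) + (T + T) := by
  abel

theorem W15_two_zsmul (T : W15.toAffine.Point) : (2 : ℤ) • T = T + T := by
  abel

/-- HALVING: a point all of whose `x - e` are squares is a double. -/
theorem W15_exists_add_self_eq {x y : ℚ} (h : W15.toAffine.Nonsingular x y)
    (h1 : IsSquare x) (h2 : IsSquare (x + 9)) (h3 : IsSquare (x - 16)) :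
    ∃ Q : W15.toAffine.Point, Q + Q = Point.some x y h := by
  obtain ⟨a, ha⟩ := h1
  obtain ⟨b, hb⟩ := h2
  obtain ⟨c, hc⟩ := h3
  have hab : a + b ≠ 0 := by
    intro h0
    have : b = -a := by linarith
    subst this
    nlinarith
  have hac : a + c ≠ 0 := by
    intro h0
    have : c = -a := by linarith
    subst this
    nlinarith
  have hbc : b + c ≠ 0 := by
    intro h0
    have : c = -b := by linarith
    subst this
    nlinarith
  have hQ : ((a + b) * (a + c) * (b + c)) ^ 2 =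
      ((a + b) * (a + c)) * ((a + b) * (a + c) + 9) * ((a + b) * (a + c) - 16) := by
    have e1 : (a + b) * (a + c) + 9 = (a + b) * (b + c) := by linear_combination hb - ha
    have e2 : (a + b) * (a + c) - 16 = (a + c) * (b + c) := by linear_combination hc - ha
    rw [e1, e2]
    ring
  have hyQ : (a + b) * (a + c) * (b + c) ≠ 0 := mul_ne_zero (mul_ne_zero hab hac) hbc
  have hnsQ := (W15_nonsingular_iff _ _).mpr hQ
  obtain ⟨y', h', e⟩ := x_two_smul hnsQ hyQ
  have hx : (((a + b) * (a + c)) ^ 2 + 144) ^ 2 /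
      (4 * ((a + b) * (a + c) * ((a + b) * (a + c) + 9) * ((a + b) * (a + c) - 16))) = x := by
    rw [← hQ]
    have e3 : ((a + b) * (a + c)) ^ 2 + 144 = 2 * a * ((a + b) * (a + c) * (b + c)) := by
      have h9 : (9 : ℚ) = b * b - a * a := by linarith
      have h16 : (16 : ℚ) = a * a - c * c := by linarith
      have : (144 : ℚ) = (b * b - a * a) * (a * a - c * c) := by rw [← h9, ← h16]; norm_num
      rw [this]
      ring
    rw [e3, ha]
    field_simp
    ring
  rcases (X_eq_iff (h₁ := h') (h₂ := h)).mp hx with hP | hP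
  · exact ⟨_, e.trans hP⟩
  · refine ⟨-Point.some _ _ hnsQ, ?_⟩
    rw [← neg_add, e, hP, neg_neg]

theorem W15_chord_rel {x y s t ℓ e : ℚ} (hP : y ^ 2 = x * (x + 9) * (x - 16))
    (hS : t ^ 2 = s * (s + 9) * (s - 16)) (hxs : x ≠ s) (hℓ : ℓ * (x - s) = y - t)
    (he : e * (e + 9) * (e - 16) = 0) :
    (x - e) * (s - e) * ((ℓ ^ 2 + 7 - x - s) - e) = (ℓ * (e - s) + t) ^ 2 := by
  have hd : x - s ≠ 0 := sub_ne_zero.mpr hxs
  apply mul_left_cancel₀ hd
  linear_combination (-(e - s)) * hP - (ℓ * (x - s) + t + y) * (e - s) * hℓ + (e - x) * hS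
    - (x - s) * he

/-- chord addition on `W15` with explicit `x`-coordinate. -/
theorem W15_add_of_X_ne {x y s t : ℚ} (h : W15.toAffine.Nonsingular x y)
    (hS : W15.toAffine.Nonsingular s t) (hxs : x ≠ s) :
    ∃ (ℓ x₃ y₃ : ℚ) (h₃ : W15.toAffine.Nonsingular x₃ y₃), ℓ * (x - s) = y - t ∧
      x₃ = ℓ ^ 2 + 7 - x - s ∧
      (Point.some x y h : W15.toAffine.Point) + Point.some s t hS = Point.some x₃ y₃ h₃ := by
  refine ⟨W15.toAffine.slope x s y t, _, _, nonsingular_add h hS fun hxy => hxs hxy.left, ?_, ?_,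
    add_of_X_ne hxs⟩
  · rw [Affine.slope_of_X_ne hxs, div_mul_cancel₀ _ (sub_ne_zero.mpr hxs)]
  · simp only [Affine.addX, W15_a₁, W15_a₂]
    ring

/-- if `P + S = 2Q` with `4S = 0`, then `P = T + 2Q` with `4T = 0`. -/
theorem W15_decomp_of_add {P S Q : W15.toAffine.Point} (hS : (4 : ℤ) • S = 0)
    (hQ : Q + Q = P + S) :
    ∃ T Q : W15.toAffine.Point, (4 : ℤ) • T = 0 ∧ P = T + (2 : ℤ) • Q := by
  refine ⟨-S, Q, by rw [zsmul_neg, hS, _root_.neg_zero], ?_⟩
  rw [W15_two_zsmul, hQ]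
  abel

/-- a point whose double is `2`-torsion is `4`-torsion. -/
theorem W15_four_zsmul_eq_zero {x y : ℚ} (h : W15.toAffine.Nonsingular x y) (hy : y ≠ 0)
    (hd : ∀ x₂ : ℚ, x₂ = (x ^ 2 + 144) ^ 2 / (4 * (x * (x + 9) * (x - 16))) →
      x₂ * (x₂ + 9) * (x₂ - 16) = 0) :
    (4 : ℤ) • (Point.some x y h : W15.toAffine.Point) = 0 := by
  obtain ⟨y', h', e⟩ := x_two_smul h hy
  rw [W15_four_zsmul, e]
  apply W15_add_self_of_y_eq_zero
  have := (W15_nonsingular_iff _ _).mp h'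
  rw [hd _ rfl] at this
  exact (pow_eq_zero_iff two_ne_zero).mp this

theorem W15_four_zsmul_eq_zero_of_x {x y : ℚ} (h : W15.toAffine.Nonsingular x y)
    (hx : x = 36 ∨ x = -4) : (4 : ℤ) • (Point.some x y h : W15.toAffine.Point) = 0 := by
  have heq := (W15_nonsingular_iff _ _).mp h
  rcases hx with rfl | rfl
  · apply W15_four_zsmul_eq_zero h
    · intro h0
      rw [h0] at heq
      norm_num at heq
    · intro x₂ hx₂
      have : x₂ = 16 := by rw [hx₂]; norm_num
      rw [this]; norm_num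
  · apply W15_four_zsmul_eq_zero h
    · intro h0
      rw [h0] at heq
      norm_num at heq
    · intro x₂ hx₂
      have : x₂ = 16 := by rw [hx₂]; norm_num
      rw [this]; norm_num

theorem W15_four_zsmul_eq_zero_of_y {x y : ℚ} (h : W15.toAffine.Nonsingular x y)
    (hy : y = 0) : (4 : ℤ) • (Point.some x y h : W15.toAffine.Point) = 0 := by
  rw [W15_four_zsmul, W15_add_self_of_y_eq_zero h hy, add_zero]


/-- the square-class statement of module M51, as a hypothesis. -/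
def SqClass15 : Prop :=
  ∀ x y : ℚ, y ^ 2 = x * (x + 9) * (x - 16) → y ≠ 0 →
    (IsSquare x ∧ IsSquare (x + 9) ∧ IsSquare (x - 16)) ∨
    (IsSquare (-x) ∧ IsSquare (x + 9) ∧ IsSquare (-(x - 16))) ∨
    (IsSquare x ∧ IsSquare (5 * (x + 9)) ∧ IsSquare (5 * (x - 16))) ∨
    (IsSquare (-x) ∧ IsSquare (5 * (x + 9)) ∧ IsSquare (-(5 * (x - 16))))

/-- class `(-1, 1, -1)`: translate by `(0, 0)`. -/
theorem W15_decomp_classB {x y : ℚ} (h : W15.toAffine.Nonsingular x y) (hy : y ≠ 0)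
    (h1 : IsSquare (-x)) (h2 : IsSquare (x + 9)) (h3 : IsSquare (-(x - 16))) :
    ∃ T Q : W15.toAffine.Point, (4 : ℤ) • T = 0 ∧
      (Point.some x y h : W15.toAffine.Point) = T + (2 : ℤ) • Q := by
  have heq := (W15_nonsingular_iff _ _).mp h
  have hx0 : x ≠ 0 := by
    rintro rfl
    apply hy
    rw [← pow_eq_zero_iff (two_ne_zero), heq]
    ring
  have hT : W15.toAffine.Nonsingular 0 0 := (W15_nonsingular_iff _ _).mpr (by norm_num)
  obtain ⟨ℓ, x₃, y₃, h₃, hℓ, hx₃, hadd⟩ := W15_add_of_X_ne h hT hx0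
  obtain ⟨a, ha⟩ := h1
  obtain ⟨b, hb⟩ := h2
  obtain ⟨c, hc⟩ := h3
  have ha0 : a ≠ 0 := by
    rintro rfl
    apply hx0
    linarith
  -- `x₃ x = -144`
  have hprod : x₃ * x = -144 := by
    have h1 : ℓ ^ 2 * x = (x + 9) * (x - 16) := by
      apply mul_left_cancel₀ hx0
      have : ℓ * x = y := by linarith
      calc x * (ℓ ^ 2 * x) = (ℓ * x) ^ 2 := by ring
        _ = y ^ 2 := by rw [this]
        _ = x * ((x + 9) * (x - 16)) := by rw [heq]; ring
    rw [hx₃]
    linear_combination h1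
  have s1 : IsSquare x₃ := by
    apply isSquare_of_sq_mul_eq_sq ha0 (B := 12)
    linear_combination (-1 : ℚ) * hprod - x₃ * ha
  have s2 : IsSquare (x₃ + 9) := by
    apply isSquare_of_sq_mul_eq_sq ha0 (B := 3 * c)
    linear_combination (-1 : ℚ) * hprod - (x₃ + 9) * ha + 9 * hc
  have s3 : IsSquare (x₃ - 16) := by
    apply isSquare_of_sq_mul_eq_sq ha0 (B := 4 * b)
    linear_combination (-1 : ℚ) * hprod - (x₃ - 16) * ha + 16 * hb
  obtain ⟨Q, hQ⟩ := W15_exists_add_self_eq h₃ s1 s2 s3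
  exact W15_decomp_of_add (W15_four_zsmul_eq_zero_of_y hT rfl) (hQ.trans hadd.symm)

/-- classes `(1, 5, 5)` and `(-1, 5, -5)`: translate by a point `(s, t)` of order `4`. -/
theorem W15_decomp_classCD {x y s t m₀ m₉ m₁₆ : ℚ} (h : W15.toAffine.Nonsingular x y)
    (hS : W15.toAffine.Nonsingular s t) (hs : s = 36 ∨ s = -4) (hxs : x ≠ s)
    (hm₀ : m₀ ≠ 0) (hm₉ : m₉ ≠ 0) (hm₁₆ : m₁₆ ≠ 0)
    (e₀ : m₀ ^ 2 = (x - 0) * (s - 0)) (e₉ : m₉ ^ 2 = (x - -9) * (s - -9))
    (e₁₆ : m₁₆ ^ 2 = (x - 16) * (s - 16)) :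
    ∃ T Q : W15.toAffine.Point, (4 : ℤ) • T = 0 ∧
      (Point.some x y h : W15.toAffine.Point) = T + (2 : ℤ) • Q := by
  have heq := (W15_nonsingular_iff _ _).mp h
  have hSeq := (W15_nonsingular_iff _ _).mp hS
  obtain ⟨ℓ, x₃, y₃, h₃, hℓ, hx₃, hadd⟩ := W15_add_of_X_ne h hS hxs
  have r₀ := W15_chord_rel heq hSeq hxs hℓ (e := 0) (by norm_num)
  have r₉ := W15_chord_rel heq hSeq hxs hℓ (e := -9) (by norm_num)
  have r₁₆ := W15_chord_rel heq hSeq hxs hℓ (e := 16) (by norm_num)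
  rw [← hx₃] at r₀ r₉ r₁₆
  have s1 : IsSquare x₃ := by
    apply isSquare_of_sq_mul_eq_sq hm₀ (B := ℓ * (0 - s) + t)
    rw [← r₀, e₀]
    ring
  have s2 : IsSquare (x₃ + 9) := by
    apply isSquare_of_sq_mul_eq_sq hm₉ (B := ℓ * (-9 - s) + t)
    rw [← r₉, e₉]
    ring
  have s3 : IsSquare (x₃ - 16) := by
    apply isSquare_of_sq_mul_eq_sq hm₁₆ (B := ℓ * (16 - s) + t)
    rw [← r₁₆, e₁₆]
  obtain ⟨Q, hQ⟩ := W15_exists_add_self_eq h₃ s1 s2 s3
  exact W15_decomp_of_add (W15_four_zsmul_eq_zero_of_x hS hs) (hQ.trans hadd.symm)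

/-- MODULE M52 (with the M51 statement as a hypothesis): every rational point of `W15` is
`T + 2Q` with `4T = 0`. -/
theorem exists_four_torsion_add_two_smul_of (hsq : SqClass15) (P : W15.toAffine.Point) :
    ∃ T Q : W15.toAffine.Point, (4 : ℤ) • T = 0 ∧ P = T + (2 : ℤ) • Q := by
  rcases P with _ | ⟨x, y, h⟩
  · exact ⟨0, 0, zsmul_zero _, by rw [zsmul_zero, add_zero]; rfl⟩
  have heq := (W15_nonsingular_iff _ _).mp h
  by_cases hy : y = 0
  · exact ⟨_, 0, W15_four_zsmul_eq_zero_of_y h hy, by rw [zsmul_zero, add_zero]⟩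
  have hx0 : x ≠ 0 := by
    rintro rfl
    apply hy
    rw [← pow_eq_zero_iff (two_ne_zero), heq]
    ring
  have hx9 : x + 9 ≠ 0 := by
    intro h0
    apply hy
    rw [← pow_eq_zero_iff (two_ne_zero), heq, h0]
    ring
  have hx16 : x - 16 ≠ 0 := by
    intro h0
    apply hy
    rw [← pow_eq_zero_iff (two_ne_zero), heq, h0]
    ring
  rcases hsq x y heq hy with ⟨h1, h2, h3⟩ | ⟨h1, h2, h3⟩ | ⟨h1, h2, h3⟩ | ⟨h1, h2, h3⟩
  · -- class (1,1,1)
    obtain ⟨Q, hQ⟩ := W15_exists_add_self_eq h h1 h2 h3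
    exact ⟨0, Q, zsmul_zero _, by rw [W15_two_zsmul, hQ, zero_add]⟩
  · exact W15_decomp_classB h hy h1 h2 h3
  · -- class (1,5,5): translate by (36, 180)
    by_cases hx36 : x = 36
    · exact ⟨_, 0, W15_four_zsmul_eq_zero_of_x h (Or.inl hx36), by rw [zsmul_zero, add_zero]⟩
    obtain ⟨a, ha⟩ := h1
    obtain ⟨b, hb⟩ := h2
    obtain ⟨c, hc⟩ := h3
    have hS : W15.toAffine.Nonsingular 36 180 := (W15_nonsingular_iff _ _).mpr (by norm_num)
    refine W15_decomp_classCD h hS (Or.inl rfl) hx36 (m₀ := 6 * a) (m₉ := 3 * b) (m₁₆ := 2 * c)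
      ?_ ?_ ?_ ?_ ?_ ?_
    · intro h0
      apply hx0
      have : a = 0 := by linarith
      rw [ha, this, mul_zero]
    · intro h0
      apply hx9
      have : b = 0 := by linarith
      have h5 : 5 * (x + 9) = 0 := by rw [hb, this, mul_zero]
      linarith
    · intro h0
      apply hx16
      have : c = 0 := by linarith
      have h5 : 5 * (x - 16) = 0 := by rw [hc, this, mul_zero]
      linarith
    · linear_combination (-36 : ℚ) * ha
    · linear_combination (-9 : ℚ) * hb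
    · linear_combination (-4 : ℚ) * hc
  · -- class (-1,5,-5): translate by (-4, 20)
    by_cases hx4 : x = -4
    · exact ⟨_, 0, W15_four_zsmul_eq_zero_of_x h (Or.inr hx4), by rw [zsmul_zero, add_zero]⟩
    obtain ⟨a, ha⟩ := h1
    obtain ⟨b, hb⟩ := h2
    obtain ⟨c, hc⟩ := h3
    have hS : W15.toAffine.Nonsingular (-4) 20 := (W15_nonsingular_iff _ _).mpr (by norm_num)
    refine W15_decomp_classCD h hS (Or.inr rfl) hx4 (m₀ := 2 * a) (m₉ := b) (m₁₆ := 2 * c)
      ?_ ?_ ?_ ?_ ?_ ?_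
    · intro h0
      apply hx0
      have : a = 0 := by linarith
      have h5 : -x = 0 := by rw [ha, this, mul_zero]
      linarith
    · intro h0
      apply hx9
      have h5 : 5 * (x + 9) = 0 := by rw [hb, h0, mul_zero]
      linarith
    · intro h0
      apply hx16
      have : c = 0 := by linarith
      have h5 : -(5 * (x - 16)) = 0 := by rw [hc, this, mul_zero]
      linarith
    · linear_combination (-4 : ℚ) * ha
    · linear_combination (-1 : ℚ) * hb
    · linear_combination (-4 : ℚ) * hc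

end Fermat.Agent.S51x
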