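import Mathlib

/-!
# S51 project, M54 (core): rational points of `y² = x(x+9)(x-16)` from the two descent inputs

Generic in the two inputs `H1` (every point is a 4-torsion point plus a double) and
`H2` (no nonzero infinitely 2-divisible point).
-/

set_option autoImplicit false
open WeierstrassCurve WeierstrassCurve.Affine WeierstrassCurve.Affine.Point

namespace Fermat.Agent.S51x

/-- the concrete curve `y² = x³ - 7x² - 144x` (local copy of the coefficients). -/
def dm_W : WeierstrassCurve ℚ := ⟨0, -7, 0, -144, 0⟩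

theorem dm_equation_iff (x y : ℚ) :
    dm_W.toAffine.Equation x y ↔ y ^ 2 = x * (x + 9) * (x - 16) := by
  rw [WeierstrassCurve.Affine.equation_iff]
  simp only [dm_W]
  constructor
  · intro h; linear_combination h
  · intro h; linear_combination h

theorem dm_Δ_ne_zero : dm_W.Δ ≠ 0 := by
  simp only [WeierstrassCurve.Δ, WeierstrassCurve.b₂, WeierstrassCurve.b₄, WeierstrassCurve.b₆,
    WeierstrassCurve.b₈, dm_W]
  norm_num

theorem dm_nonsingular (x y : ℚ) (h : y ^ 2 = x * (x + 9) * (x - 16)) :
    dm_W.toAffine.Nonsingular x y :=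
  (WeierstrassCurve.Affine.equation_iff_nonsingular_of_Δ_ne_zero dm_Δ_ne_zero).mp
    ((dm_equation_iff x y).mpr h)

theorem dm_negY (x y : ℚ) : dm_W.toAffine.negY x y = -y := by
  simp [WeierstrassCurve.Affine.negY, dm_W]

/-- duplication formula on `dm_W` for a point with `y ≠ 0`. -/
theorem dm_double (x y : ℚ) (h : y ^ 2 = x * (x + 9) * (x - 16)) (hy : y ≠ 0) :
    ∃ (y2 : ℚ) (h2 : dm_W.toAffine.Nonsingular ((x ^ 2 + 144) ^ 2 / (4 * y ^ 2)) y2),
      (Point.some x y (dm_nonsingular x y h) : dm_W.toAffine.Point) +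
        Point.some x y (dm_nonsingular x y h) = Point.some _ _ h2 := by
  have hyne : y ≠ dm_W.toAffine.negY x y := by
    rw [dm_negY]
    intro hh
    apply hy
    linarith
  have hsl : dm_W.toAffine.slope x x y y = (3 * x ^ 2 - 14 * x - 144) / (2 * y) := by
    rw [WeierstrassCurve.Affine.slope_of_Y_ne rfl hyne, dm_negY]
    simp only [dm_W]
    field_simp
    ring
  have hX : dm_W.toAffine.addX x x (dm_W.toAffine.slope x x y y) =
      (x ^ 2 + 144) ^ 2 / (4 * y ^ 2) := by
    rw [hsl]
    simp only [WeierstrassCurve.Affine.addX, dm_W]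
    field_simp
    rw [h]
    ring
  have hns := nonsingular_add (dm_nonsingular x y h) (dm_nonsingular x y h)
    fun hxy => hyne hxy.right
  refine ⟨dm_W.toAffine.addY x x y (dm_W.toAffine.slope x x y y), hX ▸ hns, ?_⟩
  rw [add_self_of_Y_ne hyne]
  congr 1

/-- If `4P = 0` for the affine point `P = (x, y)` then `x ∈ {0, -9, 16, 36, -4}`. -/
theorem dm_x_of_four_smul_eq_zero (x y : ℚ) (h : y ^ 2 = x * (x + 9) * (x - 16))
    (h4 : (4 : ℤ) • (Point.some x y (dm_nonsingular x y h) : dm_W.toAffine.Point) = 0) :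
    x = 0 ∨ x = -9 ∨ x = 16 ∨ x = 36 ∨ x = -4 := by
  by_cases hy : y = 0
  · -- 2-torsion
    subst hy
    have h0 : x * (x + 9) * (x - 16) = 0 := by linear_combination -h
    rcases mul_eq_zero.mp h0 with h1 | h1
    · rcases mul_eq_zero.mp h1 with h2 | h2
      · exact Or.inl h2
      · right; left; linarith
    · right; right; left; linarith
  · -- y ≠ 0 : double the point
    obtain ⟨y2, hns2, h2P⟩ := dm_double x y h hy
    generalize hP : (Point.some x y (dm_nonsingular x y h) : dm_W.toAffine.Point) = P at h4 h2P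
    generalize hx2 : (x ^ 2 + 144) ^ 2 / (4 * y ^ 2) = x2 at hns2 h2P
    have heq2 : y2 ^ 2 = x2 * (x2 + 9) * (x2 - 16) := (dm_equation_iff x2 y2).mp hns2.1
    -- 4P = 0 gives 2P = -2P
    have h4' : (P + P) + (P + P) = 0 := by
      have : (4 : ℤ) • P = (P + P) + (P + P) := by abel
      rw [← this]; exact h4
    have hneg : P + P = -(P + P) := eq_neg_of_add_eq_zero_left h4'
    rw [h2P, neg_some] at hneg
    have hy20 : y2 = 0 := by
      have := (Point.some.injEq ..).mp hneg
      have h3 : y2 = dm_W.toAffine.negY x2 y2 := this.2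
      rw [dm_negY] at h3
      linarith
    have hy2pos : (0 : ℚ) < y ^ 2 := by positivity
    have hy2ne : (4 * y ^ 2 : ℚ) ≠ 0 := by positivity
    have h0 : x2 * (x2 + 9) * (x2 - 16) = 0 := by rw [← heq2, hy20]; ring
    have hnum : (x ^ 2 + 144) ^ 2 = x2 * (4 * y ^ 2) := by
      rw [← hx2]; field_simp
    have hcase : x2 = 0 ∨ x2 = -9 ∨ x2 = 16 := by
      rcases mul_eq_zero.mp h0 with h1 | h1
      · rcases mul_eq_zero.mp h1 with h2 | h2
        · exact Or.inl h2
        · right; left; linarith
      · right; right; linarith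
    rcases hcase with hc | hc | hc
    · -- x2 = 0 : impossible
      exfalso
      rw [hc, zero_mul] at hnum
      have : (0 : ℚ) < (x ^ 2 + 144) ^ 2 := by positivity
      linarith
    · -- x2 = -9 : forces x ∈ {6, -24}, where the cubic is negative
      exfalso
      have hsq : (x ^ 2 + 18 * x - 144) ^ 2 = 0 := by
        rw [hc, h] at hnum
        linear_combination hnum
      have hq : x ^ 2 + 18 * x - 144 = 0 :=
        pow_eq_zero_iff (n := 2) (by norm_num) |>.mp hsq
      have hfac : (x - 6) * (x + 24) = 0 := by linear_combination hq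
      rcases mul_eq_zero.mp hfac with h6 | h24
      · have hx6 : x = 6 := by linarith
        subst hx6
        norm_num at h
        linarith
      · have hx24 : x = -24 := by linarith
        subst hx24
        norm_num at h
        linarith
    · -- x2 = 16 : forces x ∈ {36, -4}
      have hsq : (x ^ 2 - 32 * x - 144) ^ 2 = 0 := by
        rw [hc, h] at hnum
        linear_combination hnum
      have hq : x ^ 2 - 32 * x - 144 = 0 :=
        pow_eq_zero_iff (n := 2) (by norm_num) |>.mp hsq
      have hfac : (x - 36) * (x + 4) = 0 := by linear_combination hq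
      rcases mul_eq_zero.mp hfac with h36 | h4
      · right; right; right; left; linarith
      · right; right; right; right; linarith

/-- M54 core: the two descent inputs give the list of rational points. -/
theorem dm_rational_points_of_descent
    (H1 : ∀ P : dm_W.toAffine.Point, ∃ T Q : dm_W.toAffine.Point,
      (4 : ℤ) • T = 0 ∧ P = T + (2 : ℤ) • Q)
    (H2 : ∀ P : dm_W.toAffine.Point,
      (∀ k : ℕ, ∃ Q : dm_W.toAffine.Point, P = (2 ^ k : ℤ) • Q) → P = 0)
    (x y : ℚ) (h : y ^ 2 = x * (x + 9) * (x - 16)) :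
    x = 0 ∨ x = -9 ∨ x = 16 ∨ x = 36 ∨ x = -4 := by
  set P : dm_W.toAffine.Point := Point.some x y (dm_nonsingular x y h) with hP
  -- 4P is infinitely 2-divisible
  have key : ∀ k : ℕ, ∃ Q : dm_W.toAffine.Point, (4 : ℤ) • P = (2 ^ k : ℤ) • ((4 : ℤ) • Q) := by
    intro k
    induction k with
    | zero => exact ⟨P, by simp⟩
    | succ k ih =>
      obtain ⟨Q, hQ⟩ := ih
      obtain ⟨T, Q', hT, hQQ'⟩ := H1 Q
      refine ⟨Q', ?_⟩
      have h1 : (4 : ℤ) • (T + (2 : ℤ) • Q') = (2 : ℤ) • ((4 : ℤ) • Q') := by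
        rw [zsmul_add, hT, zero_add]
        abel
      rw [hQ, hQQ', h1, pow_succ, mul_zsmul]
  have h4 : (4 : ℤ) • P = 0 := H2 _ fun k => by
    obtain ⟨Q, hQ⟩ := key k
    exact ⟨(4 : ℤ) • Q, hQ⟩
  exact dm_x_of_four_smul_eq_zero x y h h4

end Fermat.Agent.S51x
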