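import Fermat.Agent.S51x.Descent.Curve

/-!
# S51 project, module M53: 2-adic contraction on `y² = x (x + 9) (x - 16)`

Doubling a point whose `x`-coordinate has negative 2-adic valuation lowers that valuation by `2`,
and after at most two doublings every point (with the needed `y ≠ 0`) has negative valuation.
Hence no nonzero rational point is infinitely `2`-divisible.
-/

set_option autoImplicit false

open WeierstrassCurve WeierstrassCurve.Affine WeierstrassCurve.Affine.Point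

namespace Fermat.Agent.S51x

/-- the 2-adic valuation on `ℚ`. -/
noncomputable abbrev v2 (q : ℚ) : ℤ := padicValRat 2 q

/-! ### generalities on the 2-adic valuation -/

/-- a nonzero rational of 2-adic valuation zero has odd numerator and denominator. -/
lemma v2_odd_num_den {c : ℚ} (hc : c ≠ 0) (hv : v2 c = 0) : ¬ (2 : ℤ) ∣ c.num ∧ ¬ 2 ∣ c.den := by
  have hdef : v2 c = padicValInt 2 c.num - padicValNat 2 c.den := padicValRat_def 2 c
  have hnum0 : c.num ≠ 0 := Rat.num_ne_zero.mpr hc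
  have hden0 : c.den ≠ 0 := c.den_ne_zero
  have hcop : Nat.Coprime c.num.natAbs c.den := c.reduced
  by_cases hn : (2 : ℤ) ∣ c.num
  · have h1 : 1 ≤ padicValInt 2 c.num := by
      have := (padicValInt_dvd_iff (p := 2) 1 c.num).mp (by simpa using hn)
      rcases this with h | h
      · exact absurd h hnum0
      · exact h
    have h2 : 1 ≤ padicValNat 2 c.den := by
      have : (padicValNat 2 c.den : ℤ) = padicValInt 2 c.num := by rw [hv] at hdef; linarith
      omega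
    have hd : 2 ∣ c.den := dvd_of_one_le_padicValNat h2
    have hn' : 2 ∣ c.num.natAbs := Int.natCast_dvd.mp (by simpa using hn)
    have := Nat.Coprime.eq_one_of_dvd (Nat.Coprime.coprime_dvd_left hn' hcop) hd
    omega
  · refine ⟨hn, ?_⟩
    intro hd
    have h2 : 1 ≤ padicValNat 2 c.den := one_le_padicValNat_of_dvd hden0 hd
    have h0 : padicValInt 2 c.num = 0 := padicValInt.eq_zero_of_not_dvd (by simpa using hn)
    rw [hv, h0] at hdef
    omega

lemma v2_one_add {c : ℚ} (hc : c ≠ 0) (hv : v2 c = 0) (h1 : 1 + c ≠ 0) : 1 ≤ v2 (1 + c) := by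
  obtain ⟨hn, hd⟩ := v2_odd_num_den hc hv
  have hden0 : (c.den : ℚ) ≠ 0 := by exact_mod_cast c.den_ne_zero
  have hrep : 1 + c = (((c.den : ℤ) + c.num : ℤ) : ℚ) / ((c.den : ℤ) : ℚ) := by
    conv_lhs => rw [← Rat.num_div_den c]
    push_cast
    field_simp
  have hsum0 : (((c.den : ℤ) + c.num : ℤ) : ℚ) ≠ 0 := by
    intro h0
    rw [h0, zero_div] at hrep
    exact h1 hrep
  have hsum0' : ((c.den : ℤ) + c.num : ℤ) ≠ 0 := by
    intro h; apply hsum0; rw [h]; simp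
  unfold v2
  rw [hrep, padicValRat.div hsum0 (by exact_mod_cast c.den_ne_zero), padicValRat.of_int,
    padicValRat.of_int]
  have hdz : padicValInt 2 (c.den : ℤ) = 0 := by
    apply padicValInt.eq_zero_of_not_dvd
    intro h
    apply hd
    exact_mod_cast h
  have heven : (2 : ℤ) ∣ (c.den : ℤ) + c.num := by
    have h1 : (c.den : ℤ) % 2 = 1 := by
      have : ¬ (2 : ℤ) ∣ (c.den : ℤ) := by intro h; apply hd; exact_mod_cast h
      omega
    have h2 : c.num % 2 = 1 := by omega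
    omega
  have := (padicValInt_dvd_iff (p := 2) 1 ((c.den : ℤ) + c.num)).mp (by simpa using heven)
  rcases this with h | h
  · exact absurd h hsum0'
  · rw [hdz]; simpa using h

/-- for `p = 2`: if `v a = v b` then `v (a + b) > v a`. -/
lemma v2_add_of_eq {a b : ℚ} (ha : a ≠ 0) (hb : b ≠ 0) (hab : a + b ≠ 0) (hv : v2 a = v2 b) :
    v2 a + 1 ≤ v2 (a + b) := by
  have hc : b / a ≠ 0 := div_ne_zero hb ha
  have hvc : v2 (b / a) = 0 := by
    unfold v2 at *
    rw [padicValRat.div hb ha, hv]; ring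
  have h1 : 1 + b / a ≠ 0 := by
    intro h
    apply hab
    have : a + b = a * (1 + b / a) := by field_simp
    rw [this, h, mul_zero]
  have key := v2_one_add hc hvc h1
  have : a + b = a * (1 + b / a) := by field_simp
  unfold v2 at *
  rw [this, padicValRat.mul ha h1]
  linarith

lemma v2_add_of_lt {a b : ℚ} (ha : a ≠ 0) (hab : a + b ≠ 0) (hv : v2 a < v2 b) :
    v2 (a + b) = v2 a := by
  by_cases hb : b = 0
  · rw [hb, add_zero]
  · exact padicValRat.add_eq_of_lt hab ha hb hv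

lemma v2_nine : v2 9 = 0 := by
  have : (9 : ℚ) = ((9 : ℕ) : ℚ) := by norm_num
  unfold v2
  rw [this, padicValRat.of_nat]
  have : padicValNat 2 9 = 0 := padicValNat.eq_zero_of_not_dvd (by norm_num)
  simp [this]

lemma v2_sixteen : v2 16 = 4 := by
  have : (16 : ℚ) = ((2 : ℕ) : ℚ) ^ 4 := by norm_num
  unfold v2
  rw [this, padicValRat.pow, padicValRat.self (by norm_num)]
  norm_num

lemma v2_neg_sixteen : v2 (-16) = 4 := by
  unfold v2
  rw [padicValRat.neg]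
  exact v2_sixteen

lemma v2_four : v2 4 = 2 := by
  have : (4 : ℚ) = ((2 : ℕ) : ℚ) ^ 2 := by norm_num
  unfold v2
  rw [this, padicValRat.pow, padicValRat.self (by norm_num)]
  norm_num

lemma v2_144 : v2 144 = 4 := by
  have : (144 : ℚ) = ((2 : ℕ) : ℚ) ^ 4 * ((9 : ℕ) : ℚ) := by norm_num
  unfold v2
  rw [this, padicValRat.mul (by norm_num) (by norm_num), padicValRat.pow,
    padicValRat.self (by norm_num), padicValRat.of_nat]
  have : padicValNat 2 9 = 0 := padicValNat.eq_zero_of_not_dvd (by norm_num)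
  simp [this]

lemma v2_sq (x : ℚ) : v2 (x ^ 2) = 2 * v2 x := by
  unfold v2
  rw [padicValRat.pow]
  norm_num

/-! ### the valuation of the duplication map -/

section table

variable {x y : ℚ}

lemma ne_zero_of_15a1 (h : y ^ 2 = x * (x + 9) * (x - 16)) (hy : y ≠ 0) :
    x ≠ 0 ∧ x + 9 ≠ 0 ∧ x - 16 ≠ 0 ∧ x ^ 2 + 144 ≠ 0 := by
  have hy2 : y ^ 2 ≠ 0 := pow_ne_zero 2 hy
  rw [h] at hy2
  refine ⟨?_, ?_, ?_, by positivity⟩
  · rintro rfl; apply hy2; ring
  · intro h0; apply hy2; rw [h0]; ring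
  · intro h0; apply hy2; rw [h0]; ring

lemma v2_dbl15 (h : y ^ 2 = x * (x + 9) * (x - 16)) (hy : y ≠ 0) :
    v2 (dbl15 x) = 2 * v2 (x ^ 2 + 144) - 2 - v2 x - v2 (x + 9) - v2 (x - 16) := by
  obtain ⟨h0, h9, h16, h144⟩ := ne_zero_of_15a1 h hy
  have h4 : (4 : ℚ) ≠ 0 := by norm_num
  have e := v2_four
  have e2 := v2_sq (x ^ 2 + 144)
  unfold v2 at *
  unfold dbl15
  rw [padicValRat.div (pow_ne_zero 2 h144) (mul_ne_zero h4 (mul_ne_zero (mul_ne_zero h0 h9) h16)),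
    padicValRat.mul h4 (mul_ne_zero (mul_ne_zero h0 h9) h16),
    padicValRat.mul (mul_ne_zero h0 h9) h16, padicValRat.mul h0 h9, e, e2]
  ring

theorem v2_dbl_of_neg (h : y ^ 2 = x * (x + 9) * (x - 16)) (hy : y ≠ 0) (hv : v2 x < 0) :
    v2 (dbl15 x) = v2 x - 2 := by
  obtain ⟨h0, h9, h16, h144⟩ := ne_zero_of_15a1 h hy
  have e9 : v2 (x + 9) = v2 x := v2_add_of_lt h0 h9 (by rw [v2_nine]; exact hv)
  have e16 : v2 (x - 16) = v2 x := by
    rw [sub_eq_add_neg] at h16 ⊢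
    exact v2_add_of_lt h0 h16 (by rw [v2_neg_sixteen]; linarith)
  have e144 : v2 (x ^ 2 + 144) = 2 * v2 x := by
    rw [← v2_sq]
    exact v2_add_of_lt (pow_ne_zero 2 h0) h144 (by rw [v2_sq, v2_144]; linarith)
  rw [v2_dbl15 h hy, e9, e16, e144]
  ring

theorem v2_dbl_of_zero (h : y ^ 2 = x * (x + 9) * (x - 16)) (hy : y ≠ 0) (hv : v2 x = 0) :
    v2 (dbl15 x) < 0 := by
  obtain ⟨h0, h9, h16, h144⟩ := ne_zero_of_15a1 h hy
  have e9 : 1 ≤ v2 (x + 9) := by
    have := v2_add_of_eq h0 (by norm_num : (9 : ℚ) ≠ 0) h9 (by rw [v2_nine]; exact hv)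
    linarith
  have e16 : v2 (x - 16) = v2 x := by
    rw [sub_eq_add_neg] at h16 ⊢
    exact v2_add_of_lt h0 h16 (by rw [v2_neg_sixteen]; linarith)
  have e144 : v2 (x ^ 2 + 144) = 2 * v2 x := by
    rw [← v2_sq]
    exact v2_add_of_lt (pow_ne_zero 2 h0) h144 (by rw [v2_sq, v2_144]; linarith)
  rw [v2_dbl15 h hy, e16, e144]
  linarith

/-- for `0 < v x`: `v (x + 9) = 0`. -/
lemma v2_add_nine_of_pos (h9 : x + 9 ≠ 0) (hv : 0 < v2 x) : v2 (x + 9) = 0 := by
  rw [add_comm] at h9 ⊢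
  rw [v2_add_of_lt (by norm_num) h9 (by rw [v2_nine]; exact hv), v2_nine]

theorem v2_dbl_of_one (h : y ^ 2 = x * (x + 9) * (x - 16)) (hy : y ≠ 0) (hv : v2 x = 1) :
    v2 (dbl15 x) = 0 := by
  obtain ⟨h0, h9, h16, h144⟩ := ne_zero_of_15a1 h hy
  have e9 : v2 (x + 9) = 0 := v2_add_nine_of_pos h9 (by linarith)
  have e16 : v2 (x - 16) = v2 x := by
    rw [sub_eq_add_neg] at h16 ⊢
    exact v2_add_of_lt h0 h16 (by rw [v2_neg_sixteen]; linarith)
  have e144 : v2 (x ^ 2 + 144) = 2 * v2 x := by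
    rw [← v2_sq]
    exact v2_add_of_lt (pow_ne_zero 2 h0) h144 (by rw [v2_sq, v2_144]; linarith)
  rw [v2_dbl15 h hy, e9, e16, e144, hv]
  ring

theorem v2_dbl_of_two (h : y ^ 2 = x * (x + 9) * (x - 16)) (hy : y ≠ 0) (hv : v2 x = 2) :
    4 ≤ v2 (dbl15 x) := by
  obtain ⟨h0, h9, h16, h144⟩ := ne_zero_of_15a1 h hy
  have e9 : v2 (x + 9) = 0 := v2_add_nine_of_pos h9 (by linarith)
  have e16 : v2 (x - 16) = v2 x := by
    rw [sub_eq_add_neg] at h16 ⊢
    exact v2_add_of_lt h0 h16 (by rw [v2_neg_sixteen]; linarith)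
  have e144 : 5 ≤ v2 (x ^ 2 + 144) := by
    have := v2_add_of_eq (pow_ne_zero 2 h0) (by norm_num : (144 : ℚ) ≠ 0) h144
      (by rw [v2_sq, v2_144, hv]; norm_num)
    rw [v2_sq, hv] at this
    linarith
  rw [v2_dbl15 h hy, e9, e16, hv]
  linarith

theorem v2_dbl_of_three (h : y ^ 2 = x * (x + 9) * (x - 16)) (hy : y ≠ 0) (hv : v2 x = 3) :
    v2 (dbl15 x) = 0 := by
  obtain ⟨h0, h9, h16, h144⟩ := ne_zero_of_15a1 h hy
  have e9 : v2 (x + 9) = 0 := v2_add_nine_of_pos h9 (by linarith)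
  have e16 : v2 (x - 16) = v2 x := by
    rw [sub_eq_add_neg] at h16 ⊢
    exact v2_add_of_lt h0 h16 (by rw [v2_neg_sixteen]; linarith)
  have e144 : v2 (x ^ 2 + 144) = 4 := by
    rw [add_comm] at h144 ⊢
    rw [v2_add_of_lt (by norm_num) h144 (by rw [v2_sq, v2_144]; linarith), v2_144]
  rw [v2_dbl15 h hy, e9, e16, e144, hv]
  ring

theorem v2_dbl_of_four_le (h : y ^ 2 = x * (x + 9) * (x - 16)) (hy : y ≠ 0) (hv : 4 ≤ v2 x) :
    v2 (dbl15 x) < 0 := by
  obtain ⟨h0, h9, h16, h144⟩ := ne_zero_of_15a1 h hy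
  have e9 : v2 (x + 9) = 0 := v2_add_nine_of_pos h9 (by linarith)
  have e144 : v2 (x ^ 2 + 144) = 4 := by
    rw [add_comm] at h144 ⊢
    rw [v2_add_of_lt (by norm_num) h144 (by rw [v2_sq, v2_144]; linarith), v2_144]
  have e16 : 4 ≤ v2 (x - 16) ∧ 9 ≤ v2 x + v2 (x - 16) := by
    rw [sub_eq_add_neg] at h16 ⊢
    rcases hv.lt_or_eq with hlt | heq
    · have h16' : (-16 : ℚ) + x ≠ 0 := by rwa [add_comm]
      have := v2_add_of_lt (by norm_num : (-16 : ℚ) ≠ 0) h16' (by rw [v2_neg_sixteen]; exact hlt)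
      rw [add_comm, this, v2_neg_sixteen]
      constructor <;> linarith
    · have := v2_add_of_eq h0 (by norm_num : (-16 : ℚ) ≠ 0) h16
        (by rw [v2_neg_sixteen]; exact heq.symm)
      constructor <;> linarith
  rw [v2_dbl15 h hy, e9, e144]
  linarith [e16.1, e16.2]

/-- After at most two doublings the valuation of the `x`-coordinate is negative. -/
theorem v2_dbl_eventually_neg {x' y' : ℚ} (h : y ^ 2 = x * (x + 9) * (x - 16)) (hy : y ≠ 0)
    (hx' : x' = dbl15 x) (h' : y' ^ 2 = x' * (x' + 9) * (x' - 16)) (hy' : y' ≠ 0) :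
    v2 x < 0 ∨ v2 x' < 0 ∨ v2 (dbl15 x') < 0 := by
  by_cases hneg : v2 x < 0
  · exact Or.inl hneg
  rw [not_lt] at hneg
  have hcases : v2 x = 0 ∨ v2 x = 1 ∨ v2 x = 2 ∨ v2 x = 3 ∨ 4 ≤ v2 x := by omega
  rcases hcases with hv | hv | hv | hv | hv
  · exact Or.inr (Or.inl (hx' ▸ v2_dbl_of_zero h hy hv))
  · have : v2 x' = 0 := hx' ▸ v2_dbl_of_one h hy hv
    exact Or.inr (Or.inr (v2_dbl_of_zero h' hy' this))
  · have : 4 ≤ v2 x' := hx' ▸ v2_dbl_of_two h hy hv
    exact Or.inr (Or.inr (v2_dbl_of_four_le h' hy' this))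
  · have : v2 x' = 0 := hx' ▸ v2_dbl_of_three h hy hv
    exact Or.inr (Or.inr (v2_dbl_of_zero h' hy' this))
  · exact Or.inr (Or.inl (hx' ▸ v2_dbl_of_four_le h hy hv))

end table

/-! ### points -/

/-- the `x`-coordinate of a point of `W15` (`0` at infinity). -/
noncomputable def xc15 : W15.toAffine.Point → ℚ
  | .zero => 0
  | .some x _ _ => x

lemma xc15_some {x y : ℚ} (h : W15.toAffine.Nonsingular x y) :
    xc15 (Point.some x y h) = x := rfl

/-- if `2 • Q ≠ 0` then `Q` is affine with `y ≠ 0` and `x (2 • Q) = dbl15 (x Q)`. -/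
lemma W15_two_smul_cases (Q : W15.toAffine.Point) (h2 : (2 : ℤ) • Q ≠ 0) :
    ∃ (x y : ℚ) (h : W15.toAffine.Nonsingular x y), Q = Point.some x y h ∧ y ≠ 0 ∧
      y ^ 2 = x * (x + 9) * (x - 16) ∧
      ∃ (y' : ℚ) (h' : W15.toAffine.Nonsingular (dbl15 x) y'),
        (2 : ℤ) • Q = Point.some (dbl15 x) y' h' := by
  rcases Q with _ | ⟨x, y, h⟩
  · exfalso
    apply h2
    exact zsmul_zero _
  · have hy : y ≠ 0 := by
      intro hy
      apply h2
      rw [two_zsmul]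
      exact W15_add_self_of_y_eq_zero h hy
    obtain ⟨y', h', e⟩ := x_two_smul h hy
    refine ⟨x, y, h, rfl, hy, (W15_nonsingular_iff x y).mp h, y', h', ?_⟩
    rw [two_zsmul]
    exact e

/-- once negative, the valuation drops by `2` at each doubling. -/
lemma v2_iter_of_neg (n : ℕ) : ∀ (Q : W15.toAffine.Point), ((2 : ℤ) ^ n) • Q ≠ 0 →
    v2 (xc15 Q) < 0 → v2 (xc15 (((2 : ℤ) ^ n) • Q)) = v2 (xc15 Q) - 2 * n := by
  induction n with
  | zero => intro Q _ _; simp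
  | succ n ih =>
    intro Q hQ hv
    have e : ((2 : ℤ) ^ (n + 1)) • Q = (2 : ℤ) • (((2 : ℤ) ^ n) • Q) := by
      rw [pow_succ', mul_smul]
    rw [e] at hQ ⊢
    have hR : ((2 : ℤ) ^ n) • Q ≠ 0 := by
      intro h0
      apply hQ
      rw [h0, zsmul_zero]
    have ihv := ih Q hR hv
    obtain ⟨x, y, h, hRe, hy, heq, y', h', e2⟩ := W15_two_smul_cases _ hQ
    rw [e2, xc15_some]
    rw [hRe, xc15_some] at ihv
    have hn : (0 : ℤ) ≤ n := Int.natCast_nonneg n
    rw [v2_dbl_of_neg heq hy (by rw [ihv]; linarith), ihv]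
    push_cast
    ring

/-- **M53 main theorem**: a point of `W15(ℚ)` which is divisible by every power of `2` is zero. -/
theorem no_infinitely_two_divisible (P : W15.toAffine.Point)
    (hdiv : ∀ k : ℕ, ∃ Q : W15.toAffine.Point, P = (2 ^ k : ℤ) • Q) : P = 0 := by
  by_contra hP
  obtain ⟨m, hm⟩ : ∃ m : ℕ, m = (v2 (xc15 P)).natAbs := ⟨_, rfl⟩
  have hlow : -(m : ℤ) ≤ v2 (xc15 P) := by omega
  obtain ⟨Q, hQ⟩ := hdiv (m + 3)
  have e1 : ((2 : ℤ) ^ (m + 3)) • Q = ((2 : ℤ) ^ (m + 2)) • ((2 : ℤ) • Q) := by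
    rw [pow_succ, mul_smul]
  have e2 : ((2 : ℤ) ^ (m + 2)) • ((2 : ℤ) • Q) =
      ((2 : ℤ) ^ (m + 1)) • ((2 : ℤ) • ((2 : ℤ) • Q)) := by
    rw [pow_succ, mul_smul]
  have hP0 : ((2 : ℤ) ^ (m + 3)) • Q ≠ 0 := hQ ▸ hP
  have hP1 : ((2 : ℤ) ^ (m + 2)) • ((2 : ℤ) • Q) ≠ 0 := e1 ▸ hP0
  have hP2 : ((2 : ℤ) ^ (m + 1)) • ((2 : ℤ) • ((2 : ℤ) • Q)) ≠ 0 := e2 ▸ hP1
  have hQ1 : (2 : ℤ) • Q ≠ 0 := fun h => hP1 (by rw [h, zsmul_zero])
  have hQ2 : (2 : ℤ) • ((2 : ℤ) • Q) ≠ 0 := fun h => hP2 (by rw [h, zsmul_zero])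
  obtain ⟨x0, y0, h0, hQe, hy0, heq0, y1, h1, hQ1e⟩ := W15_two_smul_cases Q hQ1
  obtain ⟨x1, y1', h1', hQ1e', hy1, heq1, y2, h2, hQ2e⟩ := W15_two_smul_cases _ hQ2
  have hx1 : x1 = dbl15 x0 := by
    have := hQ1e.symm.trans hQ1e'
    injection this with hx _
    exact hx.symm
  rcases v2_dbl_eventually_neg heq0 hy0 hx1 heq1 hy1 with hv | hv | hv
  · have key := v2_iter_of_neg (m + 3) Q hP0 (by rw [hQe, xc15_some]; exact hv)
    rw [← hQ] at key
    rw [hQe, xc15_some] at key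
    push_cast at key
    omega
  · have key := v2_iter_of_neg (m + 2) _ hP1 (by rw [hQ1e', xc15_some]; exact hv)
    rw [← e1, ← hQ] at key
    rw [hQ1e', xc15_some] at key
    push_cast at key
    omega
  · have key := v2_iter_of_neg (m + 1) _ hP2 (by rw [hQ2e, xc15_some]; exact hv)
    rw [← e2, ← e1, ← hQ] at key
    rw [hQ2e, xc15_some] at key
    push_cast at key
    omega

end Fermat.Agent.S51x
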