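import Fermat.Agent.S51x.Descent.Halving
import Fermat.Agent.S51x.Descent.TwoAdic
import Fermat.Agent.S51x.Descent.MainCore

/-!
# S51 project, M54: rational points of `y² = x(x+9)(x-16)` (route A assembly)

`rational_points_15a1_of` takes the square-class statement of module M51 (`SqClass15`,
defined in `Halving.lean`) as a hypothesis and combines M52 (`Halving`), M53 (`TwoAdic`)
and the M54 core.
-/

set_option autoImplicit false
open WeierstrassCurve WeierstrassCurve.Affine WeierstrassCurve.Affine.Point

namespace Fermat.Agent.S51x

theorem dm_W_eq_W15 : dm_W = W15 := rfl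

/-- M54 (route A), with the M51 square-class statement as a hypothesis. -/
theorem rational_points_15a1_of (hsq : SqClass15) (x y : ℚ)
    (h : y ^ 2 = x * (x + 9) * (x - 16)) :
    x = 0 ∨ x = -9 ∨ x = 16 ∨ x = 36 ∨ x = -4 :=
  dm_rational_points_of_descent
    (fun P => exists_four_torsion_add_two_smul_of hsq P)
    (fun P hP => no_infinitely_two_divisible P hP) x y h

end Fermat.Agent.S51x
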