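import Mathlib

set_option autoImplicit false

/-!
# S51 project, module M51_SQCLASS

The image of the `2`-descent map on the curve `15a1 : y² = x (x + 9) (x - 16)`:
for a rational point with `y ≠ 0` the triple of square classes of `(x, x + 9, x - 16)` is one of
`(1, 1, 1)`, `(-1, 1, -1)`, `(1, 5, 5)`, `(-1, 5, -5)`.

Proof: clear denominators (`x = A / e²` in lowest terms), bound the pairwise gcds of
`A`, `A + 9 e²`, `A - 16 e²`, extract squarefree parts dividing `12`, `15`, `20`, use that the product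
is a square, and kill the remaining bad classes by congruences modulo `3`, `9`, `8`, `4`.
-/

namespace Fermat.Agent.S51x

/-- If `v = u * q + k * E` with `u`, `E` coprime then `gcd u v ∣ k`. -/
theorem sq15_gcd_dvd (u v E q k : ℤ) (h : v = u * q + k * E) (hc : IsCoprime u E) :
    Int.gcd u v ∣ k.natAbs := by
  have h1 : ((Int.gcd u v : ℕ) : ℤ) ∣ u := Int.gcd_dvd_left ..
  have h2 : ((Int.gcd u v : ℕ) : ℤ) ∣ v := Int.gcd_dvd_right ..
  have h3 : ((Int.gcd u v : ℕ) : ℤ) ∣ k * E := by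
    have h4 : k * E = v - u * q := by rw [h]; ring
    rw [h4]
    exact dvd_sub h2 (Dvd.dvd.mul_right h1 q)
  have h4 : IsCoprime ((Int.gcd u v : ℕ) : ℤ) E := hc.of_isCoprime_of_dvd_left h1
  exact Int.natCast_dvd.mp (h4.dvd_of_dvd_mul_right h3)

/-- If `u * v = w ^ 2`, `u ≠ 0` and `gcd u v ∣ D ^ 2` then `u = ± d * r ^ 2` with `d ∣ D`
squarefree. -/
theorem sq15_sqfree_part (u v w : ℤ) (D : ℕ) (huv : u * v = w ^ 2) (hu : u ≠ 0)
    (hg : Int.gcd u v ∣ D ^ 2) :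
    ∃ (d : ℕ) (r : ℤ), d ∣ D ∧ Squarefree d ∧ (u = d * r ^ 2 ∨ u = -(d * r ^ 2)) := by
  have hgpos : 0 < Int.gcd u v := Int.gcd_pos_of_ne_zero_left v hu
  obtain ⟨u', v', hcop, hu', hv'⟩ := Int.exists_gcd_one hgpos
  generalize Int.gcd u v = g at hg hgpos hu' hv'
  have hg0 : (g : ℤ) ≠ 0 := by exact_mod_cast hgpos.ne'
  have hgw : (g : ℤ) ∣ w := by
    have h1 : (g : ℤ) ^ 2 ∣ w ^ 2 := by
      rw [← huv]
      refine ⟨u' * v', ?_⟩
      rw [hu', hv']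
      ring
    exact (Int.pow_dvd_pow_iff two_ne_zero).mp h1
  obtain ⟨w', hw'⟩ := hgw
  have huv' : u' * v' = w' ^ 2 := by
    have h1 : (g : ℤ) ^ 2 * (u' * v') = (g : ℤ) ^ 2 * w' ^ 2 := by
      calc (g : ℤ) ^ 2 * (u' * v') = (u' * g) * (v' * g) := by ring
        _ = u * v := by rw [← hu', ← hv']
        _ = w ^ 2 := huv
        _ = (g : ℤ) ^ 2 * w' ^ 2 := by rw [hw']; ring
    exact mul_left_cancel₀ (pow_ne_zero 2 hg0) h1
  obtain ⟨c, hc⟩ := Int.sq_of_gcd_eq_one hcop huv'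
  obtain ⟨d, t, hdt, hdsq⟩ := Nat.sq_mul_squarefree g
  have hdD : d ∣ D := by
    have h1 : d ∣ D ^ 2 := (Dvd.intro_left _ hdt).trans hg
    exact (hdsq.dvd_pow_iff_dvd two_ne_zero).mp h1
  refine ⟨d, c * t, hdD, hdsq, ?_⟩
  have hgd : (g : ℤ) = (t : ℤ) ^ 2 * d := by exact_mod_cast hdt.symm
  rcases hc with hc | hc
  · left; rw [hu', hc, hgd]; ring
  · right; rw [hu', hc, hgd]; ring

theorem sq15_div12 (d : ℕ) (hd : d ∣ 12) (hs : Squarefree d) : d ∈ [1, 2, 3, 6] := by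
  have h1 : d ≤ 12 := Nat.le_of_dvd (by norm_num) hd
  interval_cases d <;>
    first | decide | (exfalso; revert hd; decide) | (exfalso; revert hs; decide)

theorem sq15_div15 (d : ℕ) (hd : d ∣ 15) : d ∈ [1, 3, 5, 15] := by
  have h1 : d ≤ 15 := Nat.le_of_dvd (by norm_num) hd
  interval_cases d <;>
    first | decide | (exfalso; revert hd; decide)

theorem sq15_div20 (d : ℕ) (hd : d ∣ 20) (hs : Squarefree d) : d ∈ [1, 2, 5, 10] := by
  have h1 : d ≤ 20 := Nat.le_of_dvd (by norm_num) hd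
  interval_cases d <;>
    first | decide | (exfalso; revert hd; decide) | (exfalso; revert hs; decide)

theorem sq15_combos : ∀ dA ∈ [1, 2, 3, 6], ∀ dB ∈ [1, 3, 5, 15], ∀ dC ∈ [1, 2, 5, 10],
    (∃ r, r ≤ 30 ∧ r * r = dA * dB * dC) →
      ((dA = 1 ∧ dB = 1 ∧ dC = 1) ∨ (dA = 2 ∧ dB = 1 ∧ dC = 2) ∨ (dA = 3 ∧ dB = 3 ∧ dC = 1) ∨
       (dA = 6 ∧ dB = 3 ∧ dC = 2) ∨ (dA = 1 ∧ dB = 5 ∧ dC = 5) ∨ (dA = 2 ∧ dB = 5 ∧ dC = 10) ∨
       (dA = 3 ∧ dB = 15 ∧ dC = 5) ∨ (dA = 6 ∧ dB = 15 ∧ dC = 10)) := by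
  decide


theorem sq15_structure (A e n : ℤ) (he : e ≠ 0) (hn : n ≠ 0) (hcop : IsCoprime A e)
    (hABC : A * (A + 9 * e ^ 2) * (A - 16 * e ^ 2) = n ^ 2) :
    ∃ (s : ℤ) (dA dB dC : ℕ) (a b c : ℤ), (s = 1 ∨ s = -1) ∧
      ((dA = 1 ∧ dB = 1 ∧ dC = 1) ∨ (dA = 2 ∧ dB = 1 ∧ dC = 2) ∨ (dA = 3 ∧ dB = 3 ∧ dC = 1) ∨
       (dA = 6 ∧ dB = 3 ∧ dC = 2) ∨ (dA = 1 ∧ dB = 5 ∧ dC = 5) ∨ (dA = 2 ∧ dB = 5 ∧ dC = 10) ∨
       (dA = 3 ∧ dB = 15 ∧ dC = 5) ∨ (dA = 6 ∧ dB = 15 ∧ dC = 10)) ∧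
      A = s * dA * a ^ 2 ∧ A + 9 * e ^ 2 = dB * b ^ 2 ∧ A - 16 * e ^ 2 = s * dC * c ^ 2 := by
  obtain ⟨B, hB⟩ : ∃ B : ℤ, B = A + 9 * e ^ 2 := ⟨_, rfl⟩
  obtain ⟨C, hC⟩ : ∃ C : ℤ, C = A - 16 * e ^ 2 := ⟨_, rfl⟩
  rw [← hB, ← hC] at hABC ⊢
  have hE : 0 < e ^ 2 := by positivity
  have hn2 : 0 < n ^ 2 := by positivity
  have hA0 : A ≠ 0 := by
    rintro rfl
    rw [zero_mul, zero_mul] at hABC
    exact hn2.ne hABC
  have hB0 : B ≠ 0 := by
    rintro rfl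
    rw [mul_zero, zero_mul] at hABC
    exact hn2.ne hABC
  have hC0 : C ≠ 0 := by
    rintro rfl
    rw [mul_zero] at hABC
    exact hn2.ne hABC
  have hcopA : IsCoprime A (e ^ 2 * e ^ 2) := (hcop.pow_right).mul_right (hcop.pow_right)
  have hcopB : IsCoprime B (e ^ 2 * e ^ 2) := by
    have h1 : IsCoprime (A + (9 * e ^ 2) * e) e := hcop.add_mul_right_left (9 * e ^ 2)
    have h2 : A + (9 * e ^ 2) * e = A + 9 * e ^ 3 := by ring
    have h3 : IsCoprime (A + 9 * e ^ 2) e := by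
      have h4 : IsCoprime (A + (9 * e) * e) e := hcop.add_mul_right_left (9 * e)
      have h5 : A + (9 * e) * e = A + 9 * e ^ 2 := by ring
      rw [h5] at h4
      exact h4
    rw [hB]
    exact (h3.pow_right).mul_right (h3.pow_right)
  have hcopC : IsCoprime C (e ^ 2 * e ^ 2) := by
    have h3 : IsCoprime (A - 16 * e ^ 2) e := by
      have h4 : IsCoprime (A + (-16 * e) * e) e := hcop.add_mul_right_left (-16 * e)
      have h5 : A + (-16 * e) * e = A - 16 * e ^ 2 := by ring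
      rw [h5] at h4
      exact h4
    rw [hC]
    exact (h3.pow_right).mul_right (h3.pow_right)
  have gA : Int.gcd A (B * C) ∣ 12 ^ 2 := by
    have h := sq15_gcd_dvd A (B * C) (e ^ 2 * e ^ 2) (A - 7 * e ^ 2) (-144)
      (by rw [hB, hC]; ring) hcopA
    have e1 : ((-144 : ℤ)).natAbs = 12 ^ 2 := by norm_num
    rw [e1] at h
    exact h
  have gB : Int.gcd B (A * C) ∣ 15 ^ 2 := by
    have h := sq15_gcd_dvd B (A * C) (e ^ 2 * e ^ 2) (B - 34 * e ^ 2) 225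
      (by rw [hC, hB]; ring) hcopB
    have e1 : ((225 : ℤ)).natAbs = 15 ^ 2 := by norm_num
    rw [e1] at h
    exact h
  have gC : Int.gcd C (A * B) ∣ 20 ^ 2 := by
    have h := sq15_gcd_dvd C (A * B) (e ^ 2 * e ^ 2) (C + 41 * e ^ 2) 400
      (by rw [hC, hB]; ring) hcopC
    have e1 : ((400 : ℤ)).natAbs = 20 ^ 2 := by norm_num
    rw [e1] at h
    exact h
  have h1 : A * (B * C) = n ^ 2 := by rw [← hABC]; ring
  have h2 : B * (A * C) = n ^ 2 := by rw [← hABC]; ring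
  have h3 : C * (A * B) = n ^ 2 := by rw [← hABC]; ring
  obtain ⟨dA, rA, hdA, hsA, hA⟩ := sq15_sqfree_part A (B * C) n 12 h1 hA0 gA
  obtain ⟨dB, rB, hdB, hsB, hB'⟩ := sq15_sqfree_part B (A * C) n 15 h2 hB0 gB
  obtain ⟨dC, rC, hdC, hsC, hC'⟩ := sq15_sqfree_part C (A * B) n 20 h3 hC0 gC
  have mA := sq15_div12 dA hdA hsA
  have mB := sq15_div15 dB hdB
  have mC := sq15_div20 dC hdC hsC
  -- signs
  have hAB : A < B := by rw [hB]; linarith
  have hCA : C < A := by rw [hC]; linarith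
  have hBpos : 0 < B := by
    by_contra hneg
    have hneg := not_lt.mp hneg
    have hA' : A < 0 := by linarith
    have hC'' : C < 0 := by linarith
    have h4 : 0 < A * C := mul_pos_of_neg_of_neg hA' hC''
    have h5 : A * B * C = (A * C) * B := by ring
    have h6 : (A * C) * B ≤ 0 := mul_nonpos_of_nonneg_of_nonpos h4.le hneg
    linarith
  have hACpos : 0 < A * C := by
    have h5 : (A * C) * B = n ^ 2 := by rw [← hABC]; ring
    have h6 : 0 < (A * C) * B := by rw [h5]; exact hn2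
    exact (mul_pos_iff_of_pos_right hBpos).mp h6
  have hdA0 : (0 : ℤ) ≤ dA := by positivity
  have hdB0 : (0 : ℤ) ≤ dB := by positivity
  have hdC0 : (0 : ℤ) ≤ dC := by positivity
  have hBeq : B = dB * rB ^ 2 := by
    rcases hB' with h | h
    · exact h
    · exfalso
      have : (0 : ℤ) ≤ dB * rB ^ 2 := by positivity
      linarith
  -- the sign `s`
  obtain ⟨s, hs, hAs, hCs⟩ : ∃ s : ℤ, (s = 1 ∨ s = -1) ∧ A = s * dA * rA ^ 2 ∧
      C = s * dC * rC ^ 2 := by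
    have pA : (0 : ℤ) ≤ dA * rA ^ 2 := by positivity
    have pC : (0 : ℤ) ≤ dC * rC ^ 2 := by positivity
    rcases hA with hA | hA <;> rcases hC' with hC' | hC'
    · exact ⟨1, Or.inl rfl, by rw [hA]; ring, by rw [hC']; ring⟩
    · exfalso
      have h4 : A * C ≤ 0 := by
        rw [hA, hC']
        have := mul_nonneg pA pC
        linarith
      linarith
    · exfalso
      have h4 : A * C ≤ 0 := by
        rw [hA, hC']
        have := mul_nonneg pA pC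
        linarith
      linarith
    · exact ⟨-1, Or.inr rfl, by rw [hA]; ring, by rw [hC']; ring⟩
  -- the product of the `d`s is a square
  have hs2 : s ^ 2 = 1 := by rcases hs with rfl | rfl <;> norm_num
  have hR0 : rA * rB * rC ≠ 0 := by
    intro h0
    rcases mul_eq_zero.mp h0 with h0 | h0
    · rcases mul_eq_zero.mp h0 with h0 | h0
      · apply hA0; rw [hAs, h0]; ring
      · apply hB0; rw [hBeq, h0]; ring
    · apply hC0; rw [hCs, h0]; ring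
  have hprod : ((dA * dB * dC : ℕ) : ℤ) * (rA * rB * rC) ^ 2 = n ^ 2 := by
    rw [← hABC, hAs, hBeq, hCs]
    push_cast
    linear_combination (-(dA : ℤ) * dB * dC * rA ^ 2 * rB ^ 2 * rC ^ 2) * hs2
  have hsq : IsSquare (dA * dB * dC : ℕ) := by
    apply Rat.isSquare_natCast_iff.mp
    refine ⟨(n : ℚ) / ((rA * rB * rC : ℤ) : ℚ), ?_⟩
    have h0 : ((rA * rB * rC : ℤ) : ℚ) ≠ 0 := by exact_mod_cast hR0
    have hq := congrArg (Int.cast : ℤ → ℚ) hprod
    rw [div_mul_div_comm, eq_div_iff (mul_ne_zero h0 h0)]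
    push_cast at hq ⊢
    linear_combination hq
  have hbound : ∃ r, r ≤ 30 ∧ r * r = dA * dB * dC := by
    obtain ⟨r, hr⟩ := hsq
    refine ⟨r, ?_, hr.symm⟩
    have hle : dA * dB * dC ≤ 900 := by
      have h6 : dA ≤ 6 := by
        simp only [List.mem_cons, List.mem_nil_iff, or_false] at mA
        omega
      have h15 : dB ≤ 15 := by
        simp only [List.mem_cons, List.mem_nil_iff, or_false] at mB
        omega
      have h10 : dC ≤ 10 := by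
        simp only [List.mem_cons, List.mem_nil_iff, or_false] at mC
        omega
      calc dA * dB * dC ≤ 6 * 15 * 10 := Nat.mul_le_mul (Nat.mul_le_mul h6 h15) h10
        _ = 900 := by norm_num
    by_contra hlt
    have hlt : 31 ≤ r := by omega
    have : 31 * 31 ≤ r * r := Nat.mul_le_mul hlt hlt
    omega
  have hcombo := sq15_combos dA mA dB mB dC mC hbound
  exact ⟨s, dA, dB, dC, rA, rB, rC, hs, hcombo, hAs, hBeq, hCs⟩

theorem sq15_mod3 : ∀ a b c e p q : ZMod 3, q * b ^ 2 - p * a ^ 2 = 0 →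
    0 - p * q * c ^ 2 = e ^ 2 → e ≠ 0 → a = 0 := by decide

/-- the `3 ∣ d_A` cases are impossible -/
theorem sq15_kill3 (a b c e p q : ℤ) (h1 : q * b ^ 2 - p * a ^ 2 = 3 * e ^ 2)
    (h2 : 3 * p * a ^ 2 - p * q * c ^ 2 = 16 * e ^ 2) (he : ¬ (3 : ℤ) ∣ e)
    (hq : ¬ (3 : ℤ) ∣ q) : False := by
  have ha : (3 : ℤ) ∣ a := by
    have h1' : (q : ZMod 3) * b ^ 2 - p * a ^ 2 = 0 := by
      have h := congrArg (Int.cast : ℤ → ZMod 3) h1
      push_cast at h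
      rw [h]
      have : (3 : ZMod 3) = 0 := by decide
      rw [this, zero_mul]
    have h2' : (0 : ZMod 3) - p * q * c ^ 2 = e ^ 2 := by
      have h := congrArg (Int.cast : ℤ → ZMod 3) h2
      push_cast at h
      have h3 : (3 : ZMod 3) = 0 := by decide
      have h16 : (16 : ZMod 3) = 1 := by decide
      rw [h3, h16, zero_mul, zero_mul, one_mul] at h
      exact h
    have he' : (e : ZMod 3) ≠ 0 := by
      intro h
      exact he ((ZMod.intCast_zmod_eq_zero_iff_dvd e 3).mp h)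
    exact (ZMod.intCast_zmod_eq_zero_iff_dvd a 3).mp (sq15_mod3 _ _ _ _ _ _ h1' h2' he')
  have hb : (3 : ℤ) ∣ b := by
    have h3 : (3 : ℤ) ∣ q * b ^ 2 := by
      obtain ⟨a', rfl⟩ := ha
      exact ⟨e ^ 2 + 3 * p * a' ^ 2, by linear_combination h1⟩
    rcases Int.prime_three.dvd_or_dvd h3 with h | h
    · exact absurd h hq
    · exact Int.prime_three.dvd_of_dvd_pow h
  obtain ⟨a', rfl⟩ := ha
  obtain ⟨b', rfl⟩ := hb
  have h3 : (3 : ℤ) ∣ e ^ 2 := ⟨q * b' ^ 2 - p * a' ^ 2, by linarith⟩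
  exact he (Int.prime_three.dvd_of_dvd_pow h3)

theorem sq15_mod8 : ∀ a b e : ZMod 8, ∀ s ∈ [(1 : ZMod 8), -1], ∀ q ∈ [(1 : ZMod 8), 5],
    q * b ^ 2 - 2 * s * a ^ 2 = e ^ 2 → 4 * e ≠ 0 → 4 * a = 0 := by decide

theorem sq15_mod4 : ∀ a c e : ZMod 4, ∀ s ∈ [(1 : ZMod 4), -1], ∀ q ∈ [(1 : ZMod 4), 5],
    a ^ 2 - q * c ^ 2 = 2 * s * e ^ 2 → 2 * e ≠ 0 → False := by decide

/-- the `d_A = 2` cases are impossible -/
theorem sq15_kill2 (a b c e s q : ℤ) (hs : s = 1 ∨ s = -1) (hq : q = 1 ∨ q = 5)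
    (h1 : q * b ^ 2 - 2 * s * a ^ 2 = 9 * e ^ 2)
    (h2 : 2 * s * a ^ 2 - 2 * s * q * c ^ 2 = 16 * e ^ 2) (he : ¬ (2 : ℤ) ∣ e) : False := by
  have hs8 : ((s : ℤ) : ZMod 8) ∈ [(1 : ZMod 8), -1] := by
    rcases hs with rfl | rfl <;> simp
  have hq8 : ((q : ℤ) : ZMod 8) ∈ [(1 : ZMod 8), 5] := by
    rcases hq with rfl | rfl <;> simp
  have hs4 : ((s : ℤ) : ZMod 4) ∈ [(1 : ZMod 4), -1] := by
    rcases hs with rfl | rfl <;> simp
  have hq4 : ((q : ℤ) : ZMod 4) ∈ [(1 : ZMod 4), 5] := by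
    rcases hq with rfl | rfl <;> simp
  have ha : (2 : ℤ) ∣ a := by
    have h1' : (q : ZMod 8) * b ^ 2 - 2 * s * a ^ 2 = e ^ 2 := by
      have h := congrArg (Int.cast : ℤ → ZMod 8) h1
      push_cast at h
      have h9 : (9 : ZMod 8) = 1 := by decide
      rw [h9, one_mul] at h
      exact h
    have he' : 4 * (e : ZMod 8) ≠ 0 := by
      intro h
      have h' : ((4 * e : ℤ) : ZMod 8) = 0 := by push_cast; exact h
      have h'' := (ZMod.intCast_zmod_eq_zero_iff_dvd (4 * e) 8).mp h'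
      apply he
      push_cast at h''
      omega
    have h4a := sq15_mod8 _ _ _ _ hs8 _ hq8 h1' he'
    have h' : ((4 * a : ℤ) : ZMod 8) = 0 := by push_cast; exact h4a
    have h'' := (ZMod.intCast_zmod_eq_zero_iff_dvd (4 * a) 8).mp h'
    push_cast at h''
    omega
  obtain ⟨a', rfl⟩ := ha
  have h4 : 4 * a' ^ 2 - q * c ^ 2 = 8 * (s * e ^ 2) := by
    rcases hs with rfl | rfl <;> linarith
  have hc2 : (2 : ℤ) ∣ c ^ 2 := by
    rcases hq with rfl | rfl <;> omega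
  have hc : (2 : ℤ) ∣ c := Int.prime_two.dvd_of_dvd_pow hc2
  obtain ⟨c', rfl⟩ := hc
  have h5 : a' ^ 2 - q * c' ^ 2 = 2 * s * e ^ 2 := by linarith
  have h5' : (a' : ZMod 4) ^ 2 - q * c' ^ 2 = 2 * s * e ^ 2 := by
    have h := congrArg (Int.cast : ℤ → ZMod 4) h5
    push_cast at h
    exact h
  have he' : 2 * (e : ZMod 4) ≠ 0 := by
    intro h
    have h' : ((2 * e : ℤ) : ZMod 4) = 0 := by push_cast; exact h
    have h'' := (ZMod.intCast_zmod_eq_zero_iff_dvd (2 * e) 4).mp h'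
    apply he
    push_cast at h''
    omega
  exact sq15_mod4 _ _ _ _ hs4 _ hq4 h5' he'

theorem sq15_to_int (x y : ℚ) (h : y ^ 2 = x * (x + 9) * (x - 16)) (hy : y ≠ 0) :
    ∃ A e n : ℤ, e ≠ 0 ∧ n ≠ 0 ∧ IsCoprime A e ∧ x = (A : ℚ) / (e : ℚ) ^ 2 ∧
      A * (A + 9 * e ^ 2) * (A - 16 * e ^ 2) = n ^ 2 := by
  obtain ⟨a, ha⟩ : ∃ a : ℤ, a = x.num := ⟨_, rfl⟩
  obtain ⟨b, hb⟩ : ∃ b : ℤ, b = (x.den : ℤ) := ⟨_, rfl⟩
  have hbpos : 0 < b := by rw [hb]; exact_mod_cast x.den_pos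
  have hbq : (b : ℚ) ≠ 0 := by exact_mod_cast hbpos.ne'
  have hx : x = (a : ℚ) / (b : ℚ) := by
    rw [ha, hb]; push_cast; exact (Rat.num_div_den x).symm
  have hcop : IsCoprime a b := by rw [ha, hb]; exact Rat.isCoprime_num_den x
  have key : ((b * (a * (a + 9 * b) * (a - 16 * b)) : ℤ) : ℚ) = (y * (b : ℚ) ^ 2) ^ 2 := by
    push_cast
    rw [mul_pow, h, hx]
    field_simp
  obtain ⟨m, hm⟩ : IsSquare (b * (a * (a + 9 * b) * (a - 16 * b))) :=
    Rat.isSquare_intCast_iff.mp ⟨y * (b : ℚ) ^ 2, by rw [key]; ring⟩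
  have hm' : b * (a * (a + 9 * b) * (a - 16 * b)) = m ^ 2 := by rw [hm]; ring
  have hm0 : m ≠ 0 := by
    rintro rfl
    have h1 : (y * (b : ℚ) ^ 2) ^ 2 = 0 := by rw [← key, hm]; simp
    have h2 := (pow_eq_zero_iff two_ne_zero).mp h1
    rcases mul_eq_zero.mp h2 with h3 | h3
    · exact hy h3
    · exact hbq ((pow_eq_zero_iff two_ne_zero).mp h3)
  have hcopM : IsCoprime b (a * (a + 9 * b) * (a - 16 * b)) := by
    have h1 : IsCoprime b a := hcop.symm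
    have h2 : IsCoprime b (a + 9 * b) := h1.add_mul_right_right 9
    have h3 : IsCoprime b (a - 16 * b) := by
      have h4 := h1.add_mul_right_right (-16)
      have h5 : a + -16 * b = a - 16 * b := by ring
      rw [h5] at h4
      exact h4
    exact (h1.mul_right h2).mul_right h3
  obtain ⟨e, he⟩ := Int.sq_of_isCoprime hcopM hm'
  have hbe : b = e ^ 2 := by
    rcases he with he | he
    · exact he
    · exfalso
      have h1 : 0 ≤ e ^ 2 := sq_nonneg e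
      linarith
  have he0 : e ≠ 0 := by
    rintro rfl
    rw [hbe] at hbpos
    simp at hbpos
  have hMpos : 0 < a * (a + 9 * b) * (a - 16 * b) := by
    have h1 : 0 < b * (a * (a + 9 * b) * (a - 16 * b)) := by rw [hm']; positivity
    exact (mul_pos_iff_of_pos_left hbpos).mp h1
  have hm'' : (a * (a + 9 * b) * (a - 16 * b)) * b = m ^ 2 := by rw [mul_comm]; exact hm'
  obtain ⟨n, hn⟩ := Int.sq_of_isCoprime hcopM.symm hm''
  have hMn : a * (a + 9 * b) * (a - 16 * b) = n ^ 2 := by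
    rcases hn with hn | hn
    · exact hn
    · exfalso
      have h1 : 0 ≤ n ^ 2 := sq_nonneg n
      linarith
  have hn0 : n ≠ 0 := by
    rintro rfl
    rw [hMn] at hMpos
    simp at hMpos
  refine ⟨a, e, n, he0, hn0, ?_, ?_, ?_⟩
  · rw [hbe] at hcop
    exact (IsCoprime.pow_right_iff (by norm_num : 0 < 2)).mp hcop
  · rw [hx, hbe]; push_cast; rfl
  · rw [← hbe]; exact hMn


/-- **M51_SQCLASS**: the image of the `2`-descent map on `15a1 : y² = x (x + 9) (x - 16)`. -/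
theorem sqclass_15a1 (x y : ℚ) (h : y ^ 2 = x * (x + 9) * (x - 16)) (hy : y ≠ 0) :
    (IsSquare x ∧ IsSquare (x + 9) ∧ IsSquare (x - 16)) ∨
    (IsSquare (-x) ∧ IsSquare (x + 9) ∧ IsSquare (-(x - 16))) ∨
    (IsSquare x ∧ IsSquare (5 * (x + 9)) ∧ IsSquare (5 * (x - 16))) ∨
    (IsSquare (-x) ∧ IsSquare (5 * (x + 9)) ∧ IsSquare (-(5 * (x - 16)))) := by
  obtain ⟨A, e, n, he0, hn0, hcop, hx, hABC⟩ := sq15_to_int x y h hy
  obtain ⟨s, dA, dB, dC, a, b, c, hs, hcombo, hA, hB, hC⟩ :=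
    sq15_structure A e n he0 hn0 hcop hABC
  have heq : (e : ℚ) ≠ 0 := by exact_mod_cast he0
  have h3e : (3 : ℤ) ∣ A → ¬ (3 : ℤ) ∣ e := fun h1 h2 => by
    have h3 := hcop.isUnit_of_dvd' h1 h2
    rw [Int.isUnit_iff] at h3
    omega
  have h2e : (2 : ℤ) ∣ A → ¬ (2 : ℤ) ∣ e := fun h1 h2 => by
    have h3 := hcop.isUnit_of_dvd' h1 h2
    rw [Int.isUnit_iff] at h3
    omega
  have hxB : x + 9 = ((A + 9 * e ^ 2 : ℤ) : ℚ) / (e : ℚ) ^ 2 := by
    rw [hx]; push_cast; field_simp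
  have hxC : x - 16 = ((A - 16 * e ^ 2 : ℤ) : ℚ) / (e : ℚ) ^ 2 := by
    rw [hx]; push_cast; field_simp
  rcases hcombo with ⟨rfl, rfl, rfl⟩ | ⟨rfl, rfl, rfl⟩ | ⟨rfl, rfl, rfl⟩ | ⟨rfl, rfl, rfl⟩ |
    ⟨rfl, rfl, rfl⟩ | ⟨rfl, rfl, rfl⟩ | ⟨rfl, rfl, rfl⟩ | ⟨rfl, rfl, rfl⟩
  · -- (1, 1, 1)
    rcases hs with rfl | rfl
    · left
      refine ⟨⟨a / e, ?_⟩, ⟨b / e, ?_⟩, ⟨c / e, ?_⟩⟩
      · rw [hx, hA]; push_cast; ring
      · rw [hxB, hB]; push_cast; ring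
      · rw [hxC, hC]; push_cast; ring
    · right; left
      refine ⟨⟨a / e, ?_⟩, ⟨b / e, ?_⟩, ⟨c / e, ?_⟩⟩
      · rw [hx, hA]; push_cast; ring
      · rw [hxB, hB]; push_cast; ring
      · rw [hxC, hC]; push_cast; ring
  · -- (2, 1, 2)
    exfalso
    push_cast at hA hB hC
    exact sq15_kill2 a b c e s 1 hs (Or.inl rfl) (by linarith) (by linarith)
      (h2e ⟨s * a ^ 2, by rw [hA]; ring⟩)
  · -- (3, 3, 1)
    exfalso
    push_cast at hA hB hC
    exact sq15_kill3 a b c e s 1 (by linarith) (by linarith)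
      (h3e ⟨s * a ^ 2, by rw [hA]; ring⟩) (by norm_num)
  · -- (6, 3, 2)
    exfalso
    push_cast at hA hB hC
    exact sq15_kill3 a b c e (2 * s) 1 (by linarith) (by linarith)
      (h3e ⟨2 * s * a ^ 2, by rw [hA]; ring⟩) (by norm_num)
  · -- (1, 5, 5)
    rcases hs with rfl | rfl
    · right; right; left
      refine ⟨⟨a / e, ?_⟩, ⟨5 * b / e, ?_⟩, ⟨5 * c / e, ?_⟩⟩
      · rw [hx, hA]; push_cast; ring
      · rw [hxB, hB]; push_cast; ring
      · rw [hxC, hC]; push_cast; ring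
    · right; right; right
      refine ⟨⟨a / e, ?_⟩, ⟨5 * b / e, ?_⟩, ⟨5 * c / e, ?_⟩⟩
      · rw [hx, hA]; push_cast; ring
      · rw [hxB, hB]; push_cast; ring
      · rw [hxC, hC]; push_cast; ring
  · -- (2, 5, 10)
    exfalso
    push_cast at hA hB hC
    exact sq15_kill2 a b c e s 5 hs (Or.inr rfl) (by linarith) (by linarith)
      (h2e ⟨s * a ^ 2, by rw [hA]; ring⟩)
  · -- (3, 15, 5)
    exfalso
    push_cast at hA hB hC
    exact sq15_kill3 a b c e s 5 (by linarith) (by linarith)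
      (h3e ⟨s * a ^ 2, by rw [hA]; ring⟩) (by norm_num)
  · -- (6, 15, 10)
    exfalso
    push_cast at hA hB hC
    exact sq15_kill3 a b c e (2 * s) 5 (by linarith) (by linarith)
      (h3e ⟨2 * s * a ^ 2, by rw [hA]; ring⟩) (by norm_num)

end Fermat.Agent.S51x
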